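import Fermat.Agent.CFT.Global.GC.Setup
import Fermat.Agent.CFT.K.Bridge

set_option autoImplicit false

/-!
# CFT / Global / GC : WP `GLO-GC0a` (proofs; the statements are re-exported in `GC/Basic.lean`)
-/

noncomputable section

namespace Fermat.Agent.CFT.Global

open Fermat.Agent.CFT Fermat.Agent.S14 Fermat.Agent.Bridge IsDedekindDomain NumberField
open scoped Pointwise

variable {S : Finset Nat.Primes}

theorem le_QS_of_unram' {F : IntermediateField ℚ Qb} (hF : F.IsUnramifiedOutside S) :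
    F ≤ QS S := by
  intro x hx q hq A hA g hg
  exact (IntermediateField.mem_fixingSubgroup_iff F g).1 (hF.2 q hq A hA hg) x hx

theorem isIntegral_Qb_A (x : Qb) : IsIntegral ℚ x :=
  (AlgebraicClosure.isAlgebraic ℚ).isIntegral.isIntegral x

theorem isUnramifiedOutside_adjoin_aux_A {x : Qb} (hx : x ∈ QS S) :
    (IntermediateField.adjoin ℚ {x}).IsUnramifiedOutside S := by
  refine ⟨IntermediateField.adjoin.finiteDimensional (isIntegral_Qb_A x), fun q hq A hA g hg => ?_⟩
  rw [IntermediateField.mem_fixingSubgroup_iff]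
  have hle : IntermediateField.adjoin ℚ {x} ≤ QS S := by
    rw [IntermediateField.adjoin_simple_le_iff]
    exact hx
  intro y hy
  exact hle hy q hq A hA g hg

theorem exists_unram_of_mem_QS' {x : Qb} (hx : x ∈ QS S) :
    ∃ F : IntermediateField ℚ Qb, F.IsUnramifiedOutside S ∧ Normal ℚ F ∧ x ∈ F :=
  ⟨_, isUnramifiedOutside_normalClosure (isUnramifiedOutside_adjoin_aux_A hx),
    normal_normalClosure _,
    IntermediateField.le_normalClosure _ (IntermediateField.mem_adjoin_simple_self ℚ x)⟩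

theorem levS_isGaloisClosed' : (levS S).IsGaloisClosed ↥(QS S) := by
  rintro _ ⟨F, hF, -, rfl⟩ g hg
  rw [IntermediateField.mem_fixingSubgroup_iff]
  intro y hy
  have h := hg ⟨y, le_QS_of_unram' hF hy⟩ (fun s hs =>
    Subtype.ext ((IntermediateField.mem_fixingSubgroup_iff F s).1 hs y hy))
  exact congrArg Subtype.val h

theorem levAll_isGaloisClosed' : levAll.IsGaloisClosed Qb := by
  rintro _ ⟨F, -, -, rfl⟩ g hg
  rw [IntermediateField.mem_fixingSubgroup_iff]
  intro y hy
  exact hg y (fun s hs => (IntermediateField.mem_fixingSubgroup_iff F s).1 hs y hy)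

theorem qsRep_smooth' : IsSmooth (levS S) (qsRep S) := by
  intro v
  obtain ⟨F, hF, hFn, hx⟩ := exists_unram_of_mem_QS' ((v.toMul : (↥(QS S))ˣ) : ↥(QS S)).2
  refine ⟨_, ⟨F, hF, hFn, rfl⟩, fun s hs => ?_⟩
  apply Additive.toMul.injective
  apply Units.ext
  apply Subtype.ext
  exact (IntermediateField.mem_fixingSubgroup_iff F s).1 hs _ hx

theorem qbRep_smooth' : IsSmooth levAll qbRep := by
  intro v
  have : FiniteDimensional ℚ (IntermediateField.adjoin ℚ {((v.toMul : Qbˣ) : Qb)}) :=
    IntermediateField.adjoin.finiteDimensional (isIntegral_Qb_A _)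
  obtain ⟨U, hU, hle⟩ := exists_levAll_le (IntermediateField.adjoin ℚ {((v.toMul : Qbˣ) : Qb)})
  refine ⟨U, hU, fun s hs => ?_⟩
  apply Additive.toMul.injective
  apply Units.ext
  exact (IntermediateField.mem_fixingSubgroup_iff _ s).1 (hle hs) _
    (IntermediateField.mem_adjoin_simple_self ℚ _)

theorem isGaloisClosed_sub' {G : Type} [Group G] {Ω : Type} [Field Ω] [MulSemiringAction G Ω]
    {𝒰 : Levels G} (h : 𝒰.IsGaloisClosed Ω) (H : Subgroup G) : (𝒰.sub H).IsGaloisClosed Ω := by
  rintro _ ⟨U, hU, rfl⟩ g hg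
  refine h U hU (g : G) (fun x hx => ?_)
  exact hg x (fun s hs => hx (s : G) hs)

theorem resRep_unitsRep' {G : Type} [Group G] {Ω : Type} [Field Ω] [MulSemiringAction G Ω]
    (H : Subgroup G) : resRep (unitsRep G Ω) H = unitsRep ↥H Ω := by
  ext g x
  rfl

theorem h90_QS' (U : Subgroup GQ) :
    Z1 ((levS S).sub U) (resRep (qsRep S) U) ≤ B1 (resRep (qsRep S) U) := by
  rw [resRep_unitsRep']
  exact hilbert90 (isGaloisClosed_sub' levS_isGaloisClosed' U)

theorem h90_QS_sub' (U : Subgroup GQ) (H : Subgroup ↥U) :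
    Z1 (((levS S).sub U).sub H) (resRep (resRep (qsRep S) U) H)
      ≤ B1 (resRep (resRep (qsRep S) U) H) := by
  rw [resRep_unitsRep', resRep_unitsRep']
  exact hilbert90 (isGaloisClosed_sub' (isGaloisClosed_sub' levS_isGaloisClosed' U) H)

theorem h90_Qb' (U : Subgroup GQ) :
    Z1 (levAll.sub U) (resRep qbRep U) ≤ B1 (resRep qbRep U) := by
  rw [resRep_unitsRep']
  exact hilbert90 (isGaloisClosed_sub' levAll_isGaloisClosed' U)

theorem h90_Qb_sub' (U : Subgroup GQ) (H : Subgroup ↥U) :
    Z1 ((levAll.sub U).sub H) (resRep (resRep qbRep U) H) ≤ B1 (resRep (resRep qbRep U) H) := by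
  rw [resRep_unitsRep', resRep_unitsRep']
  exact hilbert90 (isGaloisClosed_sub' (isGaloisClosed_sub' levAll_isGaloisClosed' U) H)

theorem h90_Qb_sub_sub' (U : Subgroup GQ) (H : Subgroup ↥U) (H' : Subgroup ↥H) :
    Z1 (((levAll.sub U).sub H).sub H') (resRep (resRep (resRep qbRep U) H) H')
      ≤ B1 (resRep (resRep (resRep qbRep U) H) H') := by
  rw [resRep_unitsRep', resRep_unitsRep', resRep_unitsRep']
  exact hilbert90
    (isGaloisClosed_sub' (isGaloisClosed_sub' (isGaloisClosed_sub' levAll_isGaloisClosed' U) H) H')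

theorem mem_of_fixed' (L : IntermediateField ℚ Qb) {x : Qb}
    (hx : ∀ σ ∈ L.fixingSubgroup, σ x = x) : x ∈ L := by
  have := isGalois_Qb
  rw [← InfiniteGalois.fixedField_fixingSubgroup L, IntermediateField.mem_fixedField_iff]
  exact hx

end Fermat.Agent.CFT.Global
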