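import Fermat.Agent.CFT.Global.GC.Setup
import Fermat.Agent.Common.PlaceBridgeKummer

set_option autoImplicit false

/-!
# CFT / Global / GC : proofs of WP `GLO-GC0b` (the valuations `ordA`) and `GLO-GC0c`
(Kummer criterion).  The statements are those of `GC/Basic.lean`, in the namespaces `GC0b`, `GC0c`.
-/

noncomputable section

namespace Fermat.Agent.CFT.Global

open Fermat.Agent.CFT Fermat.Agent.S14 Fermat.Agent.Bridge IsDedekindDomain NumberField
open scoped Pointwise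

variable {S : Finset Nat.Primes}

namespace GC0b

/-- `ℚ(x)` is unramified outside `S` for `x ∈ ℚ_S` -/
theorem isUnramifiedOutside_adjoin {x : Qb} (hx : x ∈ QS S) :
    (IntermediateField.adjoin ℚ {x}).IsUnramifiedOutside S := by
  refine ⟨IntermediateField.adjoin.finiteDimensional (Algebra.IsIntegral.isIntegral _),
    fun q hq A hA σ hσ => ?_⟩
  rw [IntermediateField.mem_fixingSubgroup_iff]
  intro z hz
  exact apply_eq_of_mem_adjoin_simple (hx q hq A hA σ hσ) hz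

theorem exists_zpow {q : Nat.Primes} (hq : q ∉ S) {A : ValuationSubring Qb}
    (hA : A.LiesOverPrime (q : ℕ)) {x : Qb} (hx : x ∈ QS S) (hx0 : x ≠ 0) :
    ∃ n : ℤ, A.valuation x = A.valuation ((q : ℕ) : Qb) ^ n :=
  exists_zpow_of_isUnramifiedOutside (isUnramifiedOutside_adjoin hx)
    (IntermediateField.mem_adjoin_simple_self ℚ x) hx0 hq hA

theorem ordA_spec_of_exists {q : ℕ} {A : ValuationSubring Qb} {x : Qb}
    (h : ∃ n : ℤ, A.valuation x = A.valuation (q : Qb) ^ n) :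
    A.valuation x = A.valuation (q : Qb) ^ ordA A q x := by
  rw [ordA, dif_pos h]
  exact h.choose_spec

theorem ordA_spec {q : Nat.Primes} (hq : q ∉ S) {A : ValuationSubring Qb}
    (hA : A.LiesOverPrime (q : ℕ)) {x : Qb} (hx : x ∈ QS S) (hx0 : x ≠ 0) :
    A.valuation x = A.valuation ((q : ℕ) : Qb) ^ ordA A q x :=
  ordA_spec_of_exists (exists_zpow hq hA hx hx0)

theorem ordA_eq_of {q : ℕ} (hq : q.Prime) {A : ValuationSubring Qb}
    (hA : A.LiesOverPrime q) {x : Qb} {n : ℤ} (h : A.valuation x = A.valuation (q : Qb) ^ n) :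
    ordA A q x = n :=
  zpow_valuation_natCast_injective hq hA ((ordA_spec_of_exists ⟨n, h⟩).symm.trans h)

theorem val_q_ne_zero (q : Nat.Primes) (A : ValuationSubring Qb) :
    A.valuation ((q : ℕ) : Qb) ≠ 0 :=
  (A.valuation.ne_zero_iff).mpr (by exact_mod_cast q.2.ne_zero)

theorem ordA_mul {q : Nat.Primes} (hq : q ∉ S) {A : ValuationSubring Qb}
    (hA : A.LiesOverPrime (q : ℕ)) {x y : Qb} (hx : x ∈ QS S) (hx0 : x ≠ 0) (hy : y ∈ QS S)
    (hy0 : y ≠ 0) : ordA A q (x * y) = ordA A q x + ordA A q y := by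
  apply ordA_eq_of q.2 hA
  rw [map_mul, ordA_spec hq hA hx hx0, ordA_spec hq hA hy hy0, zpow_add₀ (val_q_ne_zero q A)]

theorem ordA_inv {q : Nat.Primes} (hq : q ∉ S) {A : ValuationSubring Qb}
    (hA : A.LiesOverPrime (q : ℕ)) {x : Qb} (hx : x ∈ QS S) (hx0 : x ≠ 0) :
    ordA A q x⁻¹ = - ordA A q x := by
  apply ordA_eq_of q.2 hA
  rw [map_inv₀, ordA_spec hq hA hx hx0, zpow_neg]

theorem ordA_pow {q : Nat.Primes} (hq : q ∉ S) {A : ValuationSubring Qb}
    (hA : A.LiesOverPrime (q : ℕ)) {x : Qb} (hx : x ∈ QS S) (hx0 : x ≠ 0) (n : ℕ) :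
    ordA A q (x ^ n) = n * ordA A q x := by
  apply ordA_eq_of q.2 hA
  rw [map_pow, ordA_spec hq hA hx hx0, ← zpow_natCast, ← zpow_mul, mul_comm]

theorem val_le_smul_iff (σ : GQ) (A : ValuationSubring Qb) (a b : Qb) :
    (σ • A).valuation (σ a) ≤ (σ • A).valuation (σ b) ↔ A.valuation a ≤ A.valuation b := by
  by_cases hb : b = 0
  · subst hb
    simp
  · have hσb : σ b ≠ 0 := fun h => hb ((map_eq_zero_iff _ σ.injective).mp h)
    have h1 : ∀ (B : ValuationSubring Qb) (c d : Qb), d ≠ 0 →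
        (B.valuation c ≤ B.valuation d ↔ c / d ∈ B) := by
      intro B c d hd
      have hvd : 0 < B.valuation d := zero_lt_iff.mpr ((B.valuation.ne_zero_iff).mpr hd)
      rw [← B.valuation_le_one_iff, map_div₀, div_le_one₀ hvd]
    rw [h1 _ _ _ hσb, h1 _ _ _ hb, ValuationSubring.mem_pointwise_smul_iff_inv_smul_mem]
    have h2 : σ⁻¹ • (σ a / σ b) = a / b := by
      rw [← map_div₀]
      exact σ.symm_apply_apply _
    rw [h2]

theorem val_eq_smul_iff (σ : GQ) (A : ValuationSubring Qb) (a b : Qb) :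
    (σ • A).valuation (σ a) = (σ • A).valuation (σ b) ↔ A.valuation a = A.valuation b := by
  rw [le_antisymm_iff, le_antisymm_iff, val_le_smul_iff, val_le_smul_iff]

open Classical in
theorem choose_congr (P P' : ℤ → Prop) (h : P = P') :
    (if h : ∃ n, P n then h.choose else (0 : ℤ)) = (if h : ∃ n, P' n then h.choose else (0 : ℤ)) := by
  subst h; rfl

theorem ordA_smul (σ : GQ) (A : ValuationSubring Qb) (q : ℕ) (x : Qb) :
    ordA (σ • A) q (σ x) = ordA A q x := by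
  have key : ∀ n : ℤ, ((σ • A).valuation (σ x) = (σ • A).valuation (q : Qb) ^ n) ↔
      (A.valuation x = A.valuation (q : Qb) ^ n) := by
    intro n
    rw [← map_zpow₀, ← map_zpow₀, ← val_eq_smul_iff σ A x, map_zpow₀ σ, map_natCast]
  exact choose_congr _ _ (funext fun n => propext (key n))

theorem ordA_apply_of_mem_decomposition {σ : GQ} {A : ValuationSubring Qb}
    (hσ : σ ∈ A.decompositionSubgroup ℚ) (q : ℕ) (x : Qb) : ordA A q (σ x) = ordA A q x := by
  have h1 : σ • A = A := hσ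
  conv_lhs => rw [← h1]
  exact ordA_smul σ A q x

theorem ordA_eq_zero_of_pow_eq_one {q : ℕ} (hq : q.Prime) {A : ValuationSubring Qb}
    (hA : A.LiesOverPrime q) {x : Qb} {n : ℕ} (hn : n ≠ 0) (hx : x ^ n = 1) : ordA A q x = 0 := by
  apply ordA_eq_of hq hA
  rw [zpow_zero]
  exact valuation_eq_one_of_pow_eq_one hn hx

/-- comparison with the number field valuation (`L` is unramified at `q`) -/
theorem ord_plA_eq_ordA {q : Nat.Primes} (hq : q ∉ S) {A : ValuationSubring Qb}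
    (hA : A.LiesOverPrime (q : ℕ)) (L : IntermediateField ℚ Qb) [FiniteDimensional ℚ L]
    (hL : L.IsUnramifiedOutside S) (x : ↥L) (hx : x ≠ 0) :
    ord (plA L q.2 A hA) x = ordA A q (x : Qb) := by
  set v := plA L q.2 A hA with hv
  have hvA : v.asIdeal = primeBelow (emb L) A := rfl
  have hinj := zpow_valuation_natCast_injective q.2 hA
  -- the ramification index is one
  set e : ℤ := - WithZero.log (v.valuation ↥L ((q : ℕ) : ↥L)) with he
  obtain ⟨ϖ, hϖ⟩ := v.valuation_exists_uniformizer ↥L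
  have hϖ0 : ϖ ≠ 0 := by
    rintro rfl
    rw [map_zero] at hϖ
    exact WithZero.exp_ne_zero hϖ.symm
  have h1 := valuation_zpow_eq (φ := emb L) (A := A) q.2 hvA hϖ0
  rw [hϖ, WithZero.log_exp, neg_neg, zpow_one] at h1
  obtain ⟨n, hn⟩ := exists_zpow_of_isUnramifiedOutside hL ϖ.2
    (fun h => hϖ0 (Subtype.ext h)) hq hA
  have hn' : A.valuation (emb L ϖ) = A.valuation ((q : ℕ) : Qb) ^ n := hn
  rw [← he, hn', ← zpow_mul] at h1
  have h2 : n * e = 1 := hinj (by
    show A.valuation ((q : ℕ) : Qb) ^ (n * e) = A.valuation ((q : ℕ) : Qb) ^ (1 : ℤ)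
    rw [zpow_one]; exact h1)
  have he0 : 0 ≤ e := by
    rw [he, neg_nonneg]
    have h3 : v.valuation ↥L ((q : ℕ) : ↥L) ≤ 1 := by
      have := v.valuation_le_one (K := ↥L) ((q : ℕ) : 𝓞 ↥L)
      simpa using this
    have h4 : v.valuation ↥L ((q : ℕ) : ↥L) ≠ 0 :=
      ((v.valuation ↥L).ne_zero_iff).mpr (by exact_mod_cast q.2.ne_zero)
    rw [← WithZero.exp_log h4, ← WithZero.exp_zero, WithZero.exp_le_exp] at h3
    exact h3
  have he1 : e = 1 := by
    rcases Int.eq_one_or_neg_one_of_mul_eq_one' h2 with ⟨-, h⟩ | ⟨-, h⟩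
    · exact h
    · omega
  have h5 := valuation_zpow_eq (φ := emb L) (A := A) q.2 hvA hx
  rw [← he, he1, zpow_one] at h5
  exact (ordA_eq_of q.2 hA h5).symm

/-- every place of `L` is below some `A` -/
theorem exists_plA_eq (L : IntermediateField ℚ Qb) [FiniteDimensional ℚ L] (v : Pl ↥L) :
    ∃ (q : Nat.Primes) (A : ValuationSubring Qb) (hA : A.LiesOverPrime (q : ℕ)),
      plA L q.2 A hA = v := by
  obtain ⟨ℓ, A, hℓ, hA, hv⟩ := exists_place_of_heightOne (emb L) v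
  exact ⟨⟨ℓ, hℓ⟩, A, hA, HeightOneSpectrum.ext hv.symm⟩

theorem plA_mem_SPl_iff (L : IntermediateField ℚ Qb) [FiniteDimensional ℚ L] {q : Nat.Primes}
    {A : ValuationSubring Qb} (hA : A.LiesOverPrime (q : ℕ)) :
    plA L q.2 A hA ∈ SPl S L ↔ q ∈ S := by
  rw [mem_SPl]
  constructor
  · rintro ⟨q', hq', hab⟩
    have h1 : ((q' : ℕ) : 𝓞 ↥L) ∈ primeBelow (emb L) A := hab
    have h2 : ((q : ℕ) : 𝓞 ↥L) ∈ primeBelow (emb L) A := natCast_mem_primeBelow (emb L) hA
    by_contra hne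
    have hqq : (q' : ℕ) ≠ q := fun h => hne (by rwa [← Subtype.ext h])
    have hcop : Nat.Coprime (q' : ℕ) q := (Nat.coprime_primes q'.2 q.2).mpr hqq
    have hI : IsCoprime ((q' : ℕ) : ℤ) ((q : ℕ) : ℤ) := Nat.isCoprime_iff_coprime.mpr hcop
    obtain ⟨a, b, hab'⟩ := hI
    have h3 : (1 : 𝓞 ↥L) ∈ primeBelow (emb L) A := by
      have h4 : (1 : 𝓞 ↥L) = (a : 𝓞 ↥L) * ((q' : ℕ) : 𝓞 ↥L) + (b : 𝓞 ↥L) * ((q : ℕ) : 𝓞 ↥L) := by
        have := congrArg (fun z : ℤ => (z : 𝓞 ↥L)) hab'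
        simpa using this.symm
      rw [h4]
      exact Ideal.add_mem _ (Ideal.mul_mem_left _ _ h1) (Ideal.mul_mem_left _ _ h2)
    exact (primeBelow_isPrime (emb L) A).ne_top ((Ideal.eq_top_iff_one _).mpr h3)
  · intro hq
    exact ⟨q, hq, natCast_mem_primeBelow (emb L) hA⟩

end GC0b

namespace GC0c

/-- `x ∈ ℚ_S^×`, `p ∈ S`, `p ^ m ∣ w_A(x)` for all `A` outside `S`: every `p ^ m`-th root of `x` is
in `ℚ_S`. -/
theorem root_mem_QS {p : ℕ} [Fact p.Prime] (hpS : ExtCitation.pPrime p ∈ S) {x y : Qb}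
    (hx : x ∈ QS S) (hx0 : x ≠ 0) {m : ℕ} (hy : y ^ (p ^ m) = x)
    (hdiv : ∀ q : Nat.Primes, q ∉ S → ∀ A : ValuationSubring Qb, A.LiesOverPrime (q : ℕ) →
      ((p ^ m : ℕ) : ℤ) ∣ ordA A q x) : y ∈ QS S := by
  intro q hq A hA g hg
  have hp : p.Prime := Fact.out
  have hqp : (q : ℕ) ≠ p := by
    intro h
    apply hq
    have : q = ExtCitation.pPrime p := Subtype.ext h
    rwa [this]
  have hcop : Nat.Coprime (q : ℕ) (p ^ m) :=
    Nat.Coprime.pow_right _ ((Nat.coprime_primes q.2 hp).mpr hqp)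
  obtain ⟨n, hn⟩ := hdiv q hq A hA
  have hq0 : ((q : ℕ) : Qb) ≠ 0 := by exact_mod_cast q.2.ne_zero
  refine apply_eq_of_mem_inertia_of_pow q.2 hA hcop hg hy (hx q hq A hA g hg)
    (c := ((q : ℕ) : Qb) ^ n) (zpow_ne_zero _ hq0) (by rw [map_zpow₀, map_natCast]) ?_
  have h1 : A.valuation y ^ (p ^ m) = (A.valuation (((q : ℕ) : Qb) ^ n)) ^ (p ^ m) := by
    rw [← map_pow, hy, GC0b.ordA_spec hq hA hx hx0, hn, map_zpow₀, ← zpow_natCast (_ ^ n),
      ← zpow_mul, mul_comm]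
  exact (pow_left_inj₀ zero_le zero_le (pow_ne_zero _ hp.ne_zero)).mp h1

/-- roots of unity of `p`-power order are in `ℚ_S` -/
theorem rootOfUnity_mem_QS {p : ℕ} [Fact p.Prime] (hpS : ExtCitation.pPrime p ∈ S) {y : Qb} {m : ℕ}
    (hy : y ^ (p ^ m) = 1) : y ∈ QS S := by
  refine root_mem_QS hpS (QS S).one_mem one_ne_zero hy fun q _ A hA => ?_
  rw [GC0b.ordA_eq_zero_of_pow_eq_one q.2 hA one_ne_zero (one_pow 1)]
  exact dvd_zero _

end GC0c

end Fermat.Agent.CFT.Global
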