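import Fermat.Agent.CFT.Global.GC.Setup
import Fermat.Agent.CFT.K.Bridge
import Fermat.Agent.CFT.Global.GC.BasicA
import Fermat.Agent.CFT.Global.GC.BasicB

set_option autoImplicit false

/-!
# CFT / Global / GC : basic facts on `ℚ_S`, Hilbert 90, valuations, Kummer criterion, Kummer characters

WPs `GLO-GC0a` (QS basics + H90), `GLO-GC0b` (`ordA`), `GLO-GC0c` (Kummer criterion),
`GLO-GC0d` (Kummer characters).  All elementary from `Common/PlaceBridge*.lean`, `K/Bridge.lean`,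
`Coh/H90*.lean`.
-/

noncomputable section

namespace Fermat.Agent.CFT.Global

open Fermat.Agent.CFT Fermat.Agent.S14 Fermat.Agent.Bridge IsDedekindDomain NumberField
open scoped Pointwise

variable {S : Finset Nat.Primes}

/-! ### GLO-GC0a -/

theorem le_QS_of_unram {F : IntermediateField ℚ Qb} (hF : F.IsUnramifiedOutside S) : F ≤ QS S :=
  le_QS_of_unram' hF

/-- (normal closure of `ℚ(x)`) -/
theorem exists_unram_of_mem_QS {x : Qb} (hx : x ∈ QS S) :
    ∃ F : IntermediateField ℚ Qb, F.IsUnramifiedOutside S ∧ Normal ℚ F ∧ x ∈ F :=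
  exists_unram_of_mem_QS' hx

theorem levS_isGaloisClosed : (levS S).IsGaloisClosed ↥(QS S) :=
  levS_isGaloisClosed'

theorem levAll_isGaloisClosed : levAll.IsGaloisClosed Qb :=
  levAll_isGaloisClosed'

theorem qsRep_smooth : IsSmooth (levS S) (qsRep S) :=
  qsRep_smooth'

theorem qbRep_smooth : IsSmooth levAll qbRep :=
  qbRep_smooth'

/-- Galois closedness passes to ANY subgroup (trivial: `Ω^U ⊆ Ω^(U ∩ H)`). -/
theorem isGaloisClosed_sub {G : Type} [Group G] {Ω : Type} [Field Ω] [MulSemiringAction G Ω]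
    {𝒰 : Levels G} (h : 𝒰.IsGaloisClosed Ω) (H : Subgroup G) : (𝒰.sub H).IsGaloisClosed Ω :=
  isGaloisClosed_sub' h H

theorem resRep_unitsRep {G : Type} [Group G] {Ω : Type} [Field Ω] [MulSemiringAction G Ω]
    (H : Subgroup G) : resRep (unitsRep G Ω) H = unitsRep ↥H Ω :=
  resRep_unitsRep' H

/-- Hilbert 90 for any subgroup `U ≤ GQ` acting on `ℚ_S` -/
theorem h90_QS (U : Subgroup GQ) :
    Z1 ((levS S).sub U) (resRep (qsRep S) U) ≤ B1 (resRep (qsRep S) U) :=
  h90_QS' U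

/-- Hilbert 90 for a subgroup of a subgroup acting on `ℚ_S` -/
theorem h90_QS_sub (U : Subgroup GQ) (H : Subgroup ↥U) :
    Z1 (((levS S).sub U).sub H) (resRep (resRep (qsRep S) U) H)
      ≤ B1 (resRep (resRep (qsRep S) U) H) :=
  h90_QS_sub' U H

/-- Hilbert 90 for any subgroup `U ≤ GQ` acting on `Qb` -/
theorem h90_Qb (U : Subgroup GQ) :
    Z1 (levAll.sub U) (resRep qbRep U) ≤ B1 (resRep qbRep U) :=
  h90_Qb' U

/-- Hilbert 90 for a subgroup of a subgroup acting on `Qb` (e.g. `locSub U A`) -/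
theorem h90_Qb_sub (U : Subgroup GQ) (H : Subgroup ↥U) :
    Z1 ((levAll.sub U).sub H) (resRep (resRep qbRep U) H) ≤ B1 (resRep (resRep qbRep U) H) :=
  h90_Qb_sub' U H

/-- Hilbert 90, three storeys (kernel of a character of `locSub U A`) -/
theorem h90_Qb_sub_sub (U : Subgroup GQ) (H : Subgroup ↥U) (H' : Subgroup ↥H) :
    Z1 (((levAll.sub U).sub H).sub H') (resRep (resRep (resRep qbRep U) H) H')
      ≤ B1 (resRep (resRep (resRep qbRep U) H) H') :=
  h90_Qb_sub_sub' U H H'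

/-- Galois correspondence, elementwise -/
theorem mem_of_fixed (L : IntermediateField ℚ Qb) {x : Qb}
    (hx : ∀ σ ∈ L.fixingSubgroup, σ x = x) : x ∈ L :=
  mem_of_fixed' L hx

/-! ### GLO-GC0b : the valuations `ordA` -/

theorem ordA_spec {q : Nat.Primes} (hq : q ∉ S) {A : ValuationSubring Qb}
    (hA : A.LiesOverPrime (q : ℕ)) {x : Qb} (hx : x ∈ QS S) (hx0 : x ≠ 0) :
    A.valuation x = A.valuation ((q : ℕ) : Qb) ^ ordA A q x :=
  GC0b.ordA_spec hq hA hx hx0

theorem ordA_eq_of {q : ℕ} (hq : q.Prime) {A : ValuationSubring Qb}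
    (hA : A.LiesOverPrime q) {x : Qb} {n : ℤ} (h : A.valuation x = A.valuation (q : Qb) ^ n) :
    ordA A q x = n :=
  GC0b.ordA_eq_of hq hA h

theorem ordA_mul {q : Nat.Primes} (hq : q ∉ S) {A : ValuationSubring Qb}
    (hA : A.LiesOverPrime (q : ℕ)) {x y : Qb} (hx : x ∈ QS S) (hx0 : x ≠ 0) (hy : y ∈ QS S)
    (hy0 : y ≠ 0) : ordA A q (x * y) = ordA A q x + ordA A q y :=
  GC0b.ordA_mul hq hA hx hx0 hy hy0

theorem ordA_inv {q : Nat.Primes} (hq : q ∉ S) {A : ValuationSubring Qb}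
    (hA : A.LiesOverPrime (q : ℕ)) {x : Qb} (hx : x ∈ QS S) (hx0 : x ≠ 0) :
    ordA A q x⁻¹ = - ordA A q x :=
  GC0b.ordA_inv hq hA hx hx0

theorem ordA_pow {q : Nat.Primes} (hq : q ∉ S) {A : ValuationSubring Qb}
    (hA : A.LiesOverPrime (q : ℕ)) {x : Qb} (hx : x ∈ QS S) (hx0 : x ≠ 0) (n : ℕ) :
    ordA A q (x ^ n) = n * ordA A q x :=
  GC0b.ordA_pow hq hA hx hx0 n

theorem ordA_smul (σ : GQ) (A : ValuationSubring Qb) (q : ℕ) (x : Qb) :
    ordA (σ • A) q (σ x) = ordA A q x :=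
  GC0b.ordA_smul σ A q x

theorem ordA_apply_of_mem_decomposition {σ : GQ} {A : ValuationSubring Qb}
    (hσ : σ ∈ A.decompositionSubgroup ℚ) (q : ℕ) (x : Qb) : ordA A q (σ x) = ordA A q x :=
  GC0b.ordA_apply_of_mem_decomposition hσ q x

theorem ordA_eq_zero_of_pow_eq_one {q : ℕ} (hq : q.Prime) {A : ValuationSubring Qb}
    (hA : A.LiesOverPrime q) {x : Qb} {n : ℕ} (hn : n ≠ 0) (hx : x ^ n = 1) : ordA A q x = 0 :=
  GC0b.ordA_eq_zero_of_pow_eq_one hq hA hn hx

/-- comparison with the number field valuation (`L` is unramified at `q`) -/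
theorem ord_plA_eq_ordA {q : Nat.Primes} (hq : q ∉ S) {A : ValuationSubring Qb}
    (hA : A.LiesOverPrime (q : ℕ)) (L : IntermediateField ℚ Qb) [FiniteDimensional ℚ L]
    (hL : L.IsUnramifiedOutside S) (x : ↥L) (hx : x ≠ 0) :
    ord (plA L q.2 A hA) x = ordA A q (x : Qb) :=
  GC0b.ord_plA_eq_ordA hq hA L hL x hx

/-- every place of `L` is below some `A`; it is in `SPl S L` iff the residue characteristic is in `S` -/
theorem exists_plA_eq (L : IntermediateField ℚ Qb) [FiniteDimensional ℚ L] (v : Pl ↥L) :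
    ∃ (q : Nat.Primes) (A : ValuationSubring Qb) (hA : A.LiesOverPrime (q : ℕ)),
      plA L q.2 A hA = v :=
  GC0b.exists_plA_eq L v

theorem plA_mem_SPl_iff (L : IntermediateField ℚ Qb) [FiniteDimensional ℚ L] {q : Nat.Primes}
    {A : ValuationSubring Qb} (hA : A.LiesOverPrime (q : ℕ)) :
    plA L q.2 A hA ∈ SPl S L ↔ q ∈ S :=
  GC0b.plA_mem_SPl_iff L hA

/-! ### GLO-GC0c : the Kummer criterion -/

/-- `x ∈ ℚ_S^×`, `p ∈ S`, `p ^ m ∣ w_A(x)` for all `A` outside `S`: every `p ^ m`-th root of `x` is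
in `ℚ_S`. -/
theorem root_mem_QS {p : ℕ} [Fact p.Prime] (hpS : ExtCitation.pPrime p ∈ S) {x y : Qb}
    (hx : x ∈ QS S) (hx0 : x ≠ 0) {m : ℕ} (hy : y ^ (p ^ m) = x)
    (hdiv : ∀ q : Nat.Primes, q ∉ S → ∀ A : ValuationSubring Qb, A.LiesOverPrime (q : ℕ) →
      ((p ^ m : ℕ) : ℤ) ∣ ordA A q x) : y ∈ QS S :=
  GC0c.root_mem_QS hpS hx hx0 hy hdiv

/-- roots of unity of `p`-power order are in `ℚ_S` -/
theorem rootOfUnity_mem_QS {p : ℕ} [Fact p.Prime] (hpS : ExtCitation.pPrime p ∈ S) {y : Qb} {m : ℕ}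
    (hy : y ^ (p ^ m) = 1) : y ∈ QS S :=
  GC0c.rootOfUnity_mem_QS hpS hy

/-! ### GLO-GC0d : Kummer characters -/

section Kum

variable {p : ℕ} [Fact p.Prime] {ζ : Qb}

theorem kum_aux (p : ℕ) (U : Subgroup GQ) {η : Qb} (hη0 : η ≠ 0)
    (hη : ∀ u ∈ U, u (η ^ p) = η ^ p) (u : ↥U) : ((u : GQ) η / η) ^ p = 1 := by
  rw [div_pow, ← map_pow, hη u u.2, div_self (pow_ne_zero _ hη0)]

/-- the defining property of the chosen exponent -/
theorem kum_choose_spec (hζ : IsPrimitiveRoot ζ p) (U : Subgroup GQ) {η : Qb}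
    (hη0 : η ≠ 0) (hη : ∀ u ∈ U, u (η ^ p) = η ^ p) (u : ↥U) :
    (u : GQ) η = ζ ^ (hζ.eq_pow_of_pow_eq_one (kum_aux p U hη0 hη u)).choose * η := by
  have h := (hζ.eq_pow_of_pow_eq_one (kum_aux p U hη0 hη u)).choose_spec.2
  rw [h, div_mul_cancel₀ _ hη0]

/-- exponents of `ζ` are determined mod `p` -/
theorem kum_cast_eq (hζ : IsPrimitiveRoot ζ p) {a b : ℕ} (h : ζ ^ a = ζ ^ b) :
    (a : ZMod p) = (b : ZMod p) := by
  rw [ZMod.natCast_eq_natCast_iff]
  have hfin : IsOfFinOrder ζ :=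
    isOfFinOrder_iff_pow_eq_one.2 ⟨p, (Fact.out : p.Prime).pos, hζ.pow_eq_one⟩
  have := hfin.pow_eq_pow_iff_modEq.1 h
  rwa [← hζ.eq_orderOf] at this

/-- the Kummer character of `η` (`η ^ p` fixed by `U`, `ζ` fixed by `U`): `u η = ζ ^ (χ u) η` -/
def kumChar (hζ : IsPrimitiveRoot ζ p) (U : Subgroup GQ) (hζU : ∀ u ∈ U, u ζ = ζ) {η : Qb}
    (hη0 : η ≠ 0) (hη : ∀ u ∈ U, u (η ^ p) = η ^ p) : ↥U →* Multiplicative (ZMod p) where
  toFun u := Multiplicative.ofAdd
    (((hζ.eq_pow_of_pow_eq_one (kum_aux p U hη0 hη u)).choose : ℕ) : ZMod p)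
  map_one' := by
    have h := kum_choose_spec hζ U hη0 hη 1
    have h1 : ζ ^ (hζ.eq_pow_of_pow_eq_one (kum_aux p U hη0 hη 1)).choose = ζ ^ 0 := by
      apply mul_right_cancel₀ hη0
      rw [← h]
      simp
    rw [kum_cast_eq hζ h1]
    simp
  map_mul' := by
    intro u v
    have huv := kum_choose_spec hζ U hη0 hη (u * v)
    have hu := kum_choose_spec hζ U hη0 hη u
    have hv := kum_choose_spec hζ U hη0 hη v
    have h1 : ζ ^ (hζ.eq_pow_of_pow_eq_one (kum_aux p U hη0 hη (u * v))).choose =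
        ζ ^ ((hζ.eq_pow_of_pow_eq_one (kum_aux p U hη0 hη u)).choose +
          (hζ.eq_pow_of_pow_eq_one (kum_aux p U hη0 hη v)).choose) := by
      apply mul_right_cancel₀ hη0
      rw [← huv]
      have h2 : ((u * v : ↥U) : GQ) η = (u : GQ) ((v : GQ) η) := rfl
      have h3 : (u : GQ) ((v : GQ) η) = (u : GQ)
          (ζ ^ (hζ.eq_pow_of_pow_eq_one (kum_aux p U hη0 hη v)).choose * η) := congrArg _ hv
      rw [h2, h3, map_mul, map_pow, hζU u u.2, pow_add]
      generalize (hζ.eq_pow_of_pow_eq_one (kum_aux p U hη0 hη v)).choose = b at *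
      generalize (hζ.eq_pow_of_pow_eq_one (kum_aux p U hη0 hη u)).choose = a at *
      rw [hu]
      ring
    rw [kum_cast_eq hζ h1, Nat.cast_add, ofAdd_add]

variable (hζ : IsPrimitiveRoot ζ p) (U : Subgroup GQ)
  (hζU : ∀ u ∈ U, u ζ = ζ) {η : Qb} (hη0 : η ≠ 0) (hη : ∀ u ∈ U, u (η ^ p) = η ^ p)

theorem kumChar_spec (u : ↥U) :
    (u : GQ) η = ζ ^ chiVal (kumChar hζ U hζU hη0 hη) u * η := by
  have h := kum_choose_spec hζ U hη0 hη u
  have hlt := (hζ.eq_pow_of_pow_eq_one (kum_aux p U hη0 hη u)).choose_spec.1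
  have : chiVal (kumChar hζ U hζU hη0 hη) u =
      (hζ.eq_pow_of_pow_eq_one (kum_aux p U hη0 hη u)).choose := by
    show (Multiplicative.toAdd (Multiplicative.ofAdd
      (((hζ.eq_pow_of_pow_eq_one (kum_aux p U hη0 hη u)).choose : ℕ) : ZMod p))).val = _
    rw [toAdd_ofAdd, ZMod.val_natCast, Nat.mod_eq_of_lt hlt]
  rw [this]
  exact h

theorem kumChar_eq_one_iff (u : ↥U) : kumChar hζ U hζU hη0 hη u = 1 ↔ (u : GQ) η = η := by
  have h := kumChar_spec hζ U hζU hη0 hη u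
  constructor
  · intro h1
    have : chiVal (kumChar hζ U hζU hη0 hη) u = 0 := chiVal_of_mem_ker _ (MonoidHom.mem_ker.2 h1)
    rw [h, this, pow_zero, one_mul]
  · intro h1
    have h2 : ζ ^ chiVal (kumChar hζ U hζU hη0 hη) u = ζ ^ 0 := by
      apply mul_right_cancel₀ hη0
      rw [← h, h1]
      simp
    have h3 := kum_cast_eq hζ h2
    have h4 : ((chiVal (kumChar hζ U hζU hη0 hη) u : ℕ) : ZMod p) =
        Multiplicative.toAdd (kumChar hζ U hζU hη0 hη u) := by
      rw [chiVal, ZMod.natCast_zmod_val]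
    rw [h4, Nat.cast_zero] at h3
    exact Multiplicative.toAdd.injective h3

/-- the Kummer character is `S`-smooth if `η ∈ ℚ_S` -/
theorem kumChar_smooth (hηS : η ∈ QS S) :
    ∃ W ∈ ((levS S).sub U).carrier, W ≤ (kumChar hζ U hζU hη0 hη).ker := by
  have hF : (IntermediateField.adjoin ℚ {η}).IsUnramifiedOutside S := by
    refine ⟨IntermediateField.adjoin.finiteDimensional
      (Algebra.IsIntegral.isIntegral η), fun q hq A hA g hg => ?_⟩
    have hle : IntermediateField.adjoin ℚ {η} ≤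
        IntermediateField.fixedField (Subgroup.zpowers g) := by
      rw [IntermediateField.adjoin_le_iff]
      intro y hy
      rw [Set.mem_singleton_iff] at hy
      rw [hy]
      show η ∈ IntermediateField.fixedField (Subgroup.zpowers g)
      rw [IntermediateField.mem_fixedField_iff]
      intro τ hτ
      obtain ⟨n, rfl⟩ := Subgroup.mem_zpowers_iff.1 hτ
      have hstab : g ∈ MulAction.stabilizer GQ η := hηS q hq A hA g hg
      exact (MulAction.stabilizer GQ η).zpow_mem hstab n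
    rw [IntermediateField.mem_fixingSubgroup_iff]
    intro x hx
    have := hle hx
    rw [IntermediateField.mem_fixedField_iff] at this
    exact this g (Subgroup.mem_zpowers g)
  obtain ⟨W, hW, hle⟩ := exists_levS_le hF
  refine ⟨_, ⟨W, hW, rfl⟩, fun u hu => ?_⟩
  rw [MonoidHom.mem_ker, kumChar_eq_one_iff]
  have h1 : (u : GQ) ∈ (IntermediateField.adjoin ℚ {η}).fixingSubgroup := hle hu
  rw [IntermediateField.mem_fixingSubgroup_iff] at h1
  exact h1 η (IntermediateField.mem_adjoin_simple_self ℚ η)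

end Kum

end Fermat.Agent.CFT.Global
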