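import Fermat.Agent.CFT.Global.GC.Setup
import Fermat.Agent.Common.PlaceBridgeKummer
import Fermat.Agent.Common.PlaceBridgeLocal
import Fermat.Agent.CFT.LS.Inst
import Fermat.Agent.S14.KummerPlaces

set_option autoImplicit false

/-!
# CFT / Global / GC : dictionary (D1) (D2) (D3)

* (D1) `ordA` on `QS S` at places outside `S`;
* (D2) `ord (plA L ..) x = ordA A q x` for `L ≤ QS S`;
* (D3) `NonSplit M (placeBelow ..) ↔` the local group is not contained in `Fix M`.
-/

namespace Fermat.Agent.CFT.Global.Dict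

open Fermat.Agent.CFT Fermat.Agent.S14 Fermat.Agent.Bridge IsDedekindDomain NumberField
open scoped Pointwise

variable {S : Finset Nat.Primes}

/-! ### (D1) -/

section D1

variable {A : ValuationSubring Qb} {q : ℕ}

theorem ordA_eq_of_valuation_eq (hq : q.Prime) (hA : A.LiesOverPrime q) {x : Qb} {n : ℤ}
    (h : A.valuation x = A.valuation (q : Qb) ^ n) : ordA A q x = n := by
  have hex : ∃ n : ℤ, A.valuation x = A.valuation (q : Qb) ^ n := ⟨n, h⟩
  rw [ordA, dif_pos hex]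
  exact zpow_valuation_natCast_injective hq hA (hex.choose_spec.symm.trans h)

theorem ordA_of_not_exists {x : Qb}
    (h : ¬ ∃ n : ℤ, A.valuation x = A.valuation (q : Qb) ^ n) : ordA A q x = 0 := by
  rw [ordA, dif_neg h]

theorem valuation_eq_zpow_ordA_of_exists {x : Qb}
    (h : ∃ n : ℤ, A.valuation x = A.valuation (q : Qb) ^ n) :
    A.valuation x = A.valuation (q : Qb) ^ ordA A q x := by
  rw [ordA, dif_pos h]
  exact h.choose_spec

theorem ordA_zero (hq : q.Prime) : ordA A q 0 = 0 := by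
  refine ordA_of_not_exists ?_
  rintro ⟨n, hn⟩
  rw [map_zero] at hn
  exact zpow_ne_zero n ((A.valuation.ne_zero_iff).mpr (by exact_mod_cast hq.ne_zero)) hn.symm

theorem ordA_one (hq : q.Prime) (hA : A.LiesOverPrime q) : ordA A q 1 = 0 :=
  ordA_eq_of_valuation_eq hq hA (by rw [map_one, zpow_zero])

theorem ordA_self (hq : q.Prime) (hA : A.LiesOverPrime q) : ordA A q (q : Qb) = 1 :=
  ordA_eq_of_valuation_eq hq hA (by rw [zpow_one])

theorem isUnramifiedOutside_adjoin_of_mem_QS {x : Qb} (hx : x ∈ QS S) :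
    (IntermediateField.adjoin ℚ {x}).IsUnramifiedOutside S := by
  refine ⟨IntermediateField.adjoin.finiteDimensional (Algebra.IsIntegral.isIntegral _),
    fun q hq A hA σ hσ => ?_⟩
  rw [IntermediateField.mem_fixingSubgroup_iff]
  intro z hz
  exact apply_eq_of_mem_adjoin_simple (hx q hq A hA σ hσ) hz

theorem le_QS_of_isUnramifiedOutside {F : IntermediateField ℚ Qb} (hF : F.IsUnramifiedOutside S) :
    F ≤ QS S := fun x hx q hq A hA _ hg =>
  (IntermediateField.mem_fixingSubgroup_iff _ _).mp (hF.2 q hq A hA hg) x hx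

theorem isUnramifiedOutside_of_le_QS {F : IntermediateField ℚ Qb} [FiniteDimensional ℚ F]
    (hF : F ≤ QS S) : F.IsUnramifiedOutside S :=
  ⟨inferInstance, fun q hq A hA g hg => (IntermediateField.mem_fixingSubgroup_iff _ _).mpr
    (fun _ hx => hF hx q hq A hA g hg)⟩

theorem exists_zpow_of_mem_QS {x : Qb} (hx : x ∈ QS S) (hx0 : x ≠ 0) {q : Nat.Primes}
    (hq : q ∉ S) (hA : A.LiesOverPrime (q : ℕ)) :
    ∃ n : ℤ, A.valuation x = A.valuation ((q : ℕ) : Qb) ^ n :=
  exists_zpow_of_isUnramifiedOutside (isUnramifiedOutside_adjoin_of_mem_QS hx)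
    (IntermediateField.mem_adjoin_simple_self ℚ x) hx0 hq hA

/-- **(D1)** -/
theorem valuation_eq_zpow_ordA {x : Qb} (hx : x ∈ QS S) (hx0 : x ≠ 0) {q : Nat.Primes}
    (hq : q ∉ S) (hA : A.LiesOverPrime (q : ℕ)) :
    A.valuation x = A.valuation ((q : ℕ) : Qb) ^ ordA A (q : ℕ) x :=
  valuation_eq_zpow_ordA_of_exists (exists_zpow_of_mem_QS hx hx0 hq hA)

theorem ordA_mul {x y : Qb} (hx : x ∈ QS S) (hx0 : x ≠ 0) (hy : y ∈ QS S) (hy0 : y ≠ 0)
    {q : Nat.Primes} (hq : q ∉ S) (hA : A.LiesOverPrime (q : ℕ)) :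
    ordA A (q : ℕ) (x * y) = ordA A (q : ℕ) x + ordA A (q : ℕ) y := by
  refine ordA_eq_of_valuation_eq q.2 hA ?_
  have h0 : A.valuation ((q : ℕ) : Qb) ≠ 0 :=
    (A.valuation.ne_zero_iff).mpr (by exact_mod_cast q.2.ne_zero)
  rw [map_mul, zpow_add₀ h0, ← valuation_eq_zpow_ordA hx hx0 hq hA,
    ← valuation_eq_zpow_ordA hy hy0 hq hA]

theorem ordA_inv {x : Qb} (hx : x ∈ QS S) {q : Nat.Primes}
    (hq : q ∉ S) (hA : A.LiesOverPrime (q : ℕ)) :
    ordA A (q : ℕ) x⁻¹ = - ordA A (q : ℕ) x := by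
  rcases eq_or_ne x 0 with rfl | hx0
  · rw [inv_zero, ordA_zero q.2, neg_zero]
  refine ordA_eq_of_valuation_eq q.2 hA ?_
  rw [map_inv₀, zpow_neg, ← valuation_eq_zpow_ordA hx hx0 hq hA]

theorem ordA_div {x y : Qb} (hx : x ∈ QS S) (hx0 : x ≠ 0) (hy : y ∈ QS S) (hy0 : y ≠ 0)
    {q : Nat.Primes} (hq : q ∉ S) (hA : A.LiesOverPrime (q : ℕ)) :
    ordA A (q : ℕ) (x / y) = ordA A (q : ℕ) x - ordA A (q : ℕ) y := by
  rw [div_eq_mul_inv, ordA_mul hx hx0 ((QS S).inv_mem hy) (inv_ne_zero hy0) hq hA,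
    ordA_inv hy hq hA, sub_eq_add_neg]

theorem ordA_pow {x : Qb} (hx : x ∈ QS S) (hx0 : x ≠ 0) {q : Nat.Primes}
    (hq : q ∉ S) (hA : A.LiesOverPrime (q : ℕ)) (n : ℕ) :
    ordA A (q : ℕ) (x ^ n) = n * ordA A (q : ℕ) x := by
  refine ordA_eq_of_valuation_eq q.2 hA ?_
  rw [map_pow, valuation_eq_zpow_ordA hx hx0 hq hA, mul_comm, zpow_mul, zpow_natCast]

theorem ordA_zpow {x : Qb} (hx : x ∈ QS S) (hx0 : x ≠ 0) {q : Nat.Primes}
    (hq : q ∉ S) (hA : A.LiesOverPrime (q : ℕ)) (n : ℤ) :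
    ordA A (q : ℕ) (x ^ n) = n * ordA A (q : ℕ) x := by
  refine ordA_eq_of_valuation_eq q.2 hA ?_
  rw [map_zpow₀, valuation_eq_zpow_ordA hx hx0 hq hA, mul_comm, zpow_mul]

/-- transport of valuations along `g : A ↦ g • A` -/
theorem valuation_smul_le_iff (g : GQ) (x y : Qb) :
    (g • A).valuation (g x) ≤ (g • A).valuation (g y) ↔ A.valuation x ≤ A.valuation y := by
  rcases eq_or_ne y 0 with rfl | hy
  · simp
  have h1 : 0 < A.valuation y := zero_lt_iff.mpr ((A.valuation.ne_zero_iff).mpr hy)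
  have h2 : 0 < (g • A).valuation (g y) :=
    zero_lt_iff.mpr (((g • A).valuation.ne_zero_iff).mpr ((map_ne_zero g).mpr hy))
  rw [← div_le_one₀ h1, ← div_le_one₀ h2, ← map_div₀, ← map_div₀, ← map_div₀,
    ValuationSubring.valuation_le_one_iff, ValuationSubring.valuation_le_one_iff]
  exact ValuationSubring.smul_mem_pointwise_smul_iff

theorem valuation_smul_eq_iff (g : GQ) (x y : Qb) :
    (g • A).valuation (g x) = (g • A).valuation (g y) ↔ A.valuation x = A.valuation y := by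
  rw [le_antisymm_iff, le_antisymm_iff, valuation_smul_le_iff, valuation_smul_le_iff]

theorem valuation_smul_eq_zpow_iff (g : GQ) (x : Qb) (n : ℤ) :
    (g • A).valuation (g x) = (g • A).valuation (q : Qb) ^ n ↔
      A.valuation x = A.valuation (q : Qb) ^ n := by
  have h := valuation_smul_eq_iff (A := A) g x ((q : Qb) ^ n)
  rwa [map_zpow₀, map_natCast, map_zpow₀, map_zpow₀] at h

/-- **(D1)** equivariance (no hypothesis on `x`) -/
theorem ordA_smul (hq : q.Prime) (hA : A.LiesOverPrime q) (g : GQ) (x : Qb) :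
    ordA (g • A) q (g x) = ordA A q x := by
  by_cases h : ∃ n : ℤ, A.valuation x = A.valuation (q : Qb) ^ n
  · obtain ⟨n, hn⟩ := h
    rw [ordA_eq_of_valuation_eq hq hA hn]
    exact ordA_eq_of_valuation_eq hq (liesOverPrime_smul hA g)
      ((valuation_smul_eq_zpow_iff g x n).mpr hn)
  · rw [ordA_of_not_exists h]
    refine ordA_of_not_exists ?_
    rintro ⟨n, hn⟩
    exact h ⟨n, (valuation_smul_eq_zpow_iff g x n).mp hn⟩

theorem dite_choose_congr {P Q : ℤ → Prop} (h : P = Q) [Decidable (∃ n, P n)]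
    [Decidable (∃ n, Q n)] :
    (if h : ∃ n, P n then h.choose else 0) = (if h : ∃ n, Q n then h.choose else 0) := by
  subst h
  congr

/-- **(D1)** equivariance, unconditional -/
theorem ordA_smul' (g : GQ) (A : ValuationSubring Qb) (q : ℕ) (x : Qb) :
    ordA (g • A) q (g x) = ordA A q x := by
  classical
  unfold ordA
  exact dite_choose_congr (funext fun n => propext (valuation_smul_eq_zpow_iff g x n))

/-- elements of the decomposition group preserve `ordA` -/
theorem ordA_apply_of_mem_decomposition {g : GQ} (hg : g ∈ A.decompositionSubgroup ℚ) (x : Qb) :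
    ordA A q (g x) = ordA A q x := by
  have h : A.valuation (g x) = A.valuation x := valuation_apply_of_mem_decomposition hg x
  unfold ordA
  rw [h]

end D1

/-! ### (D2) -/

section D2

variable {A : ValuationSubring Qb} {K : Type*} [Field K] [NumberField K]

/-- a number field inside `QS S` is unramified (`e = 1`) at the places outside `S` -/
theorem ord_natCast_eq_one (φ : K →+* Qb) (hφ : ∀ x, φ x ∈ QS S) {q : Nat.Primes} (hq : q ∉ S)
    (hA : A.LiesOverPrime (q : ℕ)) {v : Pl K} (hv : v.asIdeal = primeBelow φ A) :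
    ord v (((q : ℕ) : K)) = 1 := by
  obtain ⟨ϖ, hϖ⟩ := v.valuation_exists_uniformizer K
  have hϖ0 : ϖ ≠ 0 := by
    rintro rfl
    rw [map_zero] at hϖ
    exact WithZero.exp_ne_zero hϖ.symm
  have h1 := valuation_zpow_eq (φ := φ) (A := A) q.2 hv hϖ0
  rw [hϖ, WithZero.log_exp, neg_neg, zpow_one,
    valuation_eq_zpow_ordA (hφ ϖ) ((map_ne_zero φ).mpr hϖ0) hq hA, ← zpow_mul] at h1
  have h2 : ordA A (q : ℕ) (φ ϖ) * -WithZero.log (v.valuation K ((q : ℕ) : K)) = 1 :=
    zpow_valuation_natCast_injective q.2 hA (by simpa using h1)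
  have h3 : 0 ≤ -WithZero.log (v.valuation K ((q : ℕ) : K)) := by
    have h4 : v.valuation K ((q : ℕ) : K) ≤ 1 := by
      have := v.valuation_le_one (K := K) ((q : ℕ) : 𝓞 K)
      simpa using this
    have h5 : v.valuation K ((q : ℕ) : K) ≠ 0 :=
      ((v.valuation K).ne_zero_iff).mpr (by exact_mod_cast q.2.ne_zero)
    have h6 := (WithZero.log_le_log h5 one_ne_zero).mpr h4
    rw [WithZero.log_one] at h6
    omega
  show -WithZero.log (v.valuation K ((q : ℕ) : K)) = 1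
  rcases Int.eq_one_or_neg_one_of_mul_eq_one' h2 with ⟨-, h⟩ | ⟨-, h⟩
  · exact h
  · omega

/-- **(D2)**, abstract number field -/
theorem ord_eq_ordA (φ : K →+* Qb) (hφ : ∀ x, φ x ∈ QS S) {q : Nat.Primes} (hq : q ∉ S)
    (hA : A.LiesOverPrime (q : ℕ)) {v : Pl K} (hv : v.asIdeal = primeBelow φ A) (x : K) :
    ord v x = ordA A (q : ℕ) (φ x) := by
  rcases eq_or_ne x 0 with rfl | hx
  · rw [map_zero, ordA_zero q.2]
    simp [ord]
  symm
  refine ordA_eq_of_valuation_eq q.2 hA ?_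
  have h1 := valuation_zpow_eq (φ := φ) (A := A) q.2 hv hx
  have h2 : -WithZero.log (v.valuation K ((q : ℕ) : K)) = 1 := ord_natCast_eq_one φ hφ hq hA hv
  rw [h2, zpow_one] at h1
  exact h1

/-- **(D2)** -/
theorem ord_plA_eq_ordA (L : IntermediateField ℚ Qb) [FiniteDimensional ℚ L] (hL : L ≤ QS S)
    {q : Nat.Primes} (hq : q ∉ S) (hA : A.LiesOverPrime (q : ℕ)) (x : ↥L) :
    ord (plA L q.2 A hA) x = ordA A (q : ℕ) (x : Qb) :=
  ord_eq_ordA (emb L) (fun x => hL x.2) hq hA rfl x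

end D2

/-! ### (D3) -/

section D3

variable {A : ValuationSubring Qb} {K M : Type*} [Field K] [NumberField K] [Field M]
  [NumberField M] [Algebra K M] {φ : K →+* Qb} {ψ : M →+* Qb} {ℓ : ℕ}

theorem below_placeBelow (hι : ∀ x : K, ψ (algebraMap K M x) = φ x) (hℓ : ℓ.Prime)
    (hA : A.LiesOverPrime ℓ) {v : Pl K} (hv : v.asIdeal = primeBelow φ A) :
    below K (placeBelow ψ hℓ A hA) = v := by
  apply HeightOneSpectrum.ext
  rw [below_asIdeal, hv]
  exact primeBelow_under hι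

theorem tauPl_eq_iff (τ : M ≃ₐ[K] M) (w : Pl M) :
    tauPl K τ w = w ↔ ∀ c : 𝓞 M, c ∈ w.asIdeal ↔
      RingOfIntegers.mapRingEquiv ((τ : M ≃+* M)) c ∈ w.asIdeal := by
  constructor
  · intro h c
    have h1 := mem_sigmaPl_iff (τ.restrictScalars ℚ) w c
    have h2 : sigmaPl (τ.restrictScalars ℚ) w = w := h
    rw [h2] at h1
    exact h1.symm
  · intro h
    apply HeightOneSpectrum.ext
    ext a
    obtain ⟨c, rfl⟩ := (RingOfIntegers.mapRingEquiv ((τ.restrictScalars ℚ : M ≃ₐ[ℚ] M) :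
      M ≃+* M)).surjective a
    have h1 := mem_sigmaPl_iff (τ.restrictScalars ℚ) w c
    exact h1.trans (h c)

omit [NumberField K] [NumberField M] in
/-- restriction of an element of `Fix K` to a normal extension `M / K` -/
theorem exists_restrict [Normal K M] (hι : ∀ x : K, ψ (algebraMap K M x) = φ x) {σ : GQ}
    (hσ : σ ∈ fixer φ) : ∃ τ : M ≃ₐ[K] M, ∀ x : M, σ (ψ x) = ψ (τ x) := by
  let _ : Algebra K Qb := φ.toAlgebra
  let _ : Algebra M Qb := ψ.toAlgebra
  have : IsScalarTower K M Qb := IsScalarTower.of_algebraMap_eq (fun x => (hι x).symm)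
  let σ' : Qb ≃ₐ[K] Qb := { (σ : Qb ≃+* Qb) with commutes' := fun x => hσ x }
  exact ⟨σ'.restrictNormal M, fun x => (AlgEquiv.restrictNormal_commutes σ' M x).symm⟩

/-- **(D3)**, group form: for `M / K` Galois of prime degree, the place of `K` below `A` has only
one place of `M` above it iff `D_A ∩ Fix K` is not contained in `Fix M`. -/
theorem nonSplit_iff_exists [IsGalois K M] (hp : (Module.finrank K M).Prime)
    (hι : ∀ x : K, ψ (algebraMap K M x) = φ x) (hℓ : ℓ.Prime)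
    (hA : A.LiesOverPrime ℓ) {v : Pl K} (hv : v.asIdeal = primeBelow φ A) :
    NonSplit M v ↔ ∃ σ ∈ locGroup φ A, σ ∉ fixer ψ := by
  set w : Pl M := placeBelow ψ hℓ A hA with hw
  have hwv : below K w = v := below_placeBelow hι hℓ hA hv
  have hcard : Nat.card (M ≃ₐ[K] M) = Module.finrank K M := IsGalois.card_aut_eq_finrank K M
  constructor
  · intro h
    obtain ⟨w₀, hw₀⟩ := Finset.card_eq_one.mp h
    have hfix : ∀ τ : M ≃ₐ[K] M, tauPl K τ w = w := fun τ => by
      have e1 : w ∈ fiber M v := mem_fiber.2 hwv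
      have e2 : tauPl K τ w ∈ fiber M v := mem_fiber.2 ((below_tauPl τ w).trans hwv)
      rw [hw₀, Finset.mem_singleton] at e1 e2
      exact e2.trans e1.symm
    have : Nontrivial (M ≃ₐ[K] M) := by
      have : Finite (M ≃ₐ[K] M) := Nat.finite_of_card_ne_zero (by rw [hcard]; exact hp.ne_zero)
      rw [← Finite.one_lt_card_iff_nontrivial, hcard]
      exact hp.one_lt
    obtain ⟨τ, hτ⟩ := exists_ne (1 : M ≃ₐ[K] M)
    obtain ⟨σ, hσD, hσ⟩ := exists_lift_decomposition (φ := ψ) hℓ hA (τ : M ≃+* M)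
      ((tauPl_eq_iff τ w).mp (hfix τ))
    refine ⟨σ, ⟨hσD, fun x => ?_⟩, fun hcon => hτ ?_⟩
    · rw [← hι, hσ]
      congr 1
      exact τ.commutes x
    · ext x
      apply ψ.injective
      have := hσ x
      rw [hcon x] at this
      exact this.symm
  · rintro ⟨σ, ⟨hσD, hσK⟩, hσM⟩
    obtain ⟨τ, hτ⟩ := exists_restrict (ψ := ψ) hι hσK
    have hτ1 : τ ≠ 1 := by
      rintro rfl
      exact hσM (fun x => hτ x)
    have hτw : tauPl K τ w = w :=
      (tauPl_eq_iff τ w).mpr (mem_primeBelow_iff_of_mem_decomposition (φ := ψ)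
        (τ := (τ : M ≃+* M)) hτ hσD)
    let St : Subgroup (M ≃ₐ[K] M) :=
      { carrier := {g | tauPl K g w = w}
        mul_mem' := fun {a b} ha hb => by
          show tauPl K (a * b) w = w
          rw [tauPl_mul, (show tauPl K b w = w from hb), (show tauPl K a w = w from ha)]
        one_mem' := tauPl_one w
        inv_mem' := fun {a} ha => by
          show tauPl K a⁻¹ w = w
          have h1 : tauPl K a w = w := ha
          conv_lhs => rw [← h1, ← tauPl_mul, inv_mul_cancel, tauPl_one] }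
    have : Fact (Nat.card (M ≃ₐ[K] M)).Prime := ⟨by rw [hcard]; exact hp⟩
    have hSt : St = ⊤ := by
      rcases St.eq_bot_or_eq_top_of_prime_card with h | h
      · exact absurd ((Subgroup.mem_bot).mp (h ▸ (show τ ∈ St from hτw))) hτ1
      · exact h
    refine Finset.card_eq_one.mpr ⟨w, ?_⟩
    ext w'
    rw [mem_fiber, Finset.mem_singleton]
    constructor
    · intro hw'
      obtain ⟨g, hg⟩ := exists_tauPl_eq (K := K) (hwv.trans hw'.symm)
      have : g ∈ St := hSt ▸ Subgroup.mem_top g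
      rw [← hg]
      exact this
    · rintro rfl
      exact hwv

/-- **(D3)**, character form. -/
theorem nonSplit_iff_nonSplitAt [IsGalois K M] (hp : (Module.finrank K M).Prime)
    (hι : ∀ x : K, ψ (algebraMap K M x) = φ x) (hℓ : ℓ.Prime)
    (hA : A.LiesOverPrime ℓ) {v : Pl K} (hv : v.asIdeal = primeBelow φ A)
    {U : Subgroup GQ} (hU : U = fixer φ) {n : ℕ} (χ : ↥U →* Multiplicative (ZMod n))
    (hχ : ∀ u : ↥U, χ u = 1 ↔ (u : GQ) ∈ fixer ψ) :
    NonSplit M v ↔ NonSplitAt χ A := by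
  rw [nonSplit_iff_exists hp hι hℓ hA hv]
  constructor
  · rintro ⟨σ, ⟨hσD, hσK⟩, hσM⟩
    exact ⟨⟨σ, hU ▸ hσK⟩, hσD, fun h => hσM ((hχ _).mp h)⟩
  · rintro ⟨u, huD, hu⟩
    exact ⟨u, ⟨huD, hU ▸ u.2⟩, fun h => hu ((hχ u).mpr h)⟩

/-- **(D3)** for a Kummer extension in the sense of `S14`. -/
theorem IsKummer_nonSplit_iff_nonSplitAt {p : ℕ} [Fact p.Prime] {ζ y : K} {B : M}
    {τ : M ≃ₐ[K] M} (h : IsKummer p ζ y B τ)
    (hι : ∀ x : K, ψ (algebraMap K M x) = φ x) (hℓ : ℓ.Prime)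
    (hA : A.LiesOverPrime ℓ) {v : Pl K} (hv : v.asIdeal = primeBelow φ A)
    {U : Subgroup GQ} (hU : U = fixer φ) {n : ℕ} (χ : ↥U →* Multiplicative (ZMod n))
    (hχ : ∀ u : ↥U, χ u = 1 ↔ (u : GQ) ∈ fixer ψ) :
    NonSplit M v ↔ NonSplitAt χ A :=
  have := h.isGalois
  nonSplit_iff_nonSplitAt (by rw [h.finrank_eq]; exact Fact.out) hι hℓ hA hv hU χ hχ

end D3

/-! ### the local systems `D_A ∩ U` in the conventions of `GC/Setup` -/

section LocSys

variable {A : ValuationSubring Qb} {ℓ : ℕ}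

theorem isLocSys_locSub_of_eq {K : Type*} [Field K] [NumberField K] (φ : K →+* Qb)
    (hℓ : ℓ.Prime) (hA : A.LiesOverPrime ℓ) {U : Subgroup GQ} (hU : U = fixer φ) :
    LS.IsLocSys (Ω := Qb) (locLev U A) A.valuation := by
  refine LS.isLocSys_of_hom (U.subtype.comp (locSub U A).subtype) (fun _ _ => rfl) _
    (fun W => ?_) φ hℓ hA ?_
  · constructor
    · rintro ⟨_, ⟨U', hU', rfl⟩, rfl⟩
      exact ⟨U', hU', rfl⟩
    · rintro ⟨U', hU', rfl⟩
      exact ⟨_, ⟨U', hU', rfl⟩, rfl⟩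
  · ext σ
    constructor
    · rintro ⟨g, rfl⟩
      exact ⟨g.2, hU ▸ g.1.2⟩
    · rintro ⟨h1, h2⟩
      exact ⟨⟨⟨σ, hU ▸ h2⟩, h1⟩, rfl⟩

theorem isLocSys_locSub (L : IntermediateField ℚ Qb) [FiniteDimensional ℚ L]
    (hℓ : ℓ.Prime) (hA : A.LiesOverPrime ℓ) :
    LS.IsLocSys (Ω := Qb) (locLev L.fixingSubgroup A) A.valuation :=
  isLocSys_locSub_of_eq (emb L) hℓ hA (fixer_emb L).symm

end LocSys

end Fermat.Agent.CFT.Global.Dict
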