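import Fermat.Agent.CFT.K.Datum
import Fermat.Agent.CFT.Coh.H90Sub
import Fermat.Agent.CFT.Coh.CyclicKer
import Fermat.Agent.CFT.Coh.Cores2
import Fermat.Agent.CFT.Br.Defs
import Fermat.Agent.CFT.F.Shapiro.Defs
import Fermat.Agent.Common.PlaceBridgeHens
import Fermat.Agent.CFT.Global.GN.Defs

set_option autoImplicit false

/-!
# CFT / Global / GC : the cohomological layer of GLOBAL.  Common definitions.

* `QS S` : the maximal extension of `ℚ` unramified outside `S` (inside `Qb`), with its `GQ`-action;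
  `qsRep S`, `qbRep` : the representations of `GQ` on `Additive (QS S)ˣ`, `Additive Qbˣ`;
* `ordA A q x` : the normalised valuation at `A ∣ q` (for `x ∈ QS S`, `q ∉ S` it is the integer `n`
  with `|x|_A = |q|_A ^ n`);
* `locSub U A : Subgroup ↥U` : the decomposition group of `A` in `U`;  `LocTriv`;
* for `L : IntermediateField ℚ Qb` finite over `ℚ`: `NumberField ↥L`, `emb L`, `SPl S L`, `plA`.

CONVENTIONS.  Subgroups of subgroups + `Levels.sub` + `resRep` (`Coh/Sub.lean`); cyclic classes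
`cyc χ a` of `Coh/Cyclic.lean`; `μ_p` is embedded by `Br.muEmb ζ`.
-/

noncomputable section

namespace Fermat.Agent.CFT.Global

open Fermat.Agent.CFT Fermat.Agent.S14 Fermat.Agent.Bridge IsDedekindDomain NumberField
open scoped Pointwise

/-! ### `ℚ_S` -/

/-- the maximal extension of `ℚ` unramified outside `S` -/
def QS (S : Finset Nat.Primes) : IntermediateField ℚ Qb where
  carrier := {x | ∀ q : Nat.Primes, q ∉ S → ∀ A : ValuationSubring Qb, A.LiesOverPrime (q : ℕ) →
    ∀ g ∈ A.inertiaSubgroupIn ℚ, g x = x}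
  mul_mem' := fun {x y} hx hy q hq A hA g hg => by rw [map_mul, hx q hq A hA g hg, hy q hq A hA g hg]
  one_mem' := fun q _ A _ g _ => map_one g
  add_mem' := fun {x y} hx hy q hq A hA g hg => by rw [map_add, hx q hq A hA g hg, hy q hq A hA g hg]
  zero_mem' := fun q _ A _ g _ => map_zero g
  algebraMap_mem' := fun r q _ A _ g _ => g.commutes r
  inv_mem' := fun x hx q hq A hA g hg => by rw [map_inv₀, hx q hq A hA g hg]

variable {S : Finset Nat.Primes}

theorem mem_QS {x : Qb} : x ∈ QS S ↔ ∀ q : Nat.Primes, q ∉ S → ∀ A : ValuationSubring Qb,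
    A.LiesOverPrime (q : ℕ) → ∀ g ∈ A.inertiaSubgroupIn ℚ, g x = x := Iff.rfl

theorem apply_mem_QS (σ : GQ) {x : Qb} (hx : x ∈ QS S) : σ x ∈ QS S := by
  intro q hq A hA g hg
  have h1 : σ⁻¹ * g * σ ∈ (σ⁻¹ • A).inertiaSubgroupIn ℚ := by
    rw [mem_inertia_smul_iff q.2 hA]
    simpa [mul_assoc] using hg
  have h3 : (σ⁻¹ * g * σ) x = x := hx q hq _ (liesOverPrime_smul hA σ⁻¹) _ h1
  have h4 : σ ((σ⁻¹ * g * σ) x) = g (σ x) := by
    simp [AlgEquiv.mul_apply]
  rw [← h4, h3]

instance instActQS (S : Finset Nat.Primes) : MulSemiringAction GQ ↥(QS S) where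
  smul σ x := ⟨σ x.1, apply_mem_QS σ x.2⟩
  one_smul _ := Subtype.ext rfl
  mul_smul _ _ _ := Subtype.ext rfl
  smul_zero σ := Subtype.ext (map_zero σ)
  smul_add σ _ _ := Subtype.ext (map_add σ _ _)
  smul_one σ := Subtype.ext (map_one σ)
  smul_mul σ _ _ := Subtype.ext (map_mul σ _ _)

@[simp] theorem coe_smul_QS (σ : GQ) (x : ↥(QS S)) : ((σ • x : ↥(QS S)) : Qb) = σ (x : Qb) := rfl

/-- `GQ` acting on `ℚ_Sˣ` -/
abbrev qsRep (S : Finset Nat.Primes) : Representation ℤ GQ (Additive (↥(QS S))ˣ) :=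
  unitsRep GQ ↥(QS S)

/-- `GQ` acting on `Qbˣ` -/
abbrev qbRep : Representation ℤ GQ (Additive Qbˣ) := unitsRep GQ Qb

/-- the inclusion `ℚ_Sˣ → Qbˣ` -/
def qsToQb (S : Finset Nat.Primes) : Additive (↥(QS S))ˣ →ₗ[ℤ] Additive Qbˣ :=
  (MonoidHom.toAdditive (Units.map ((algebraMap ↥(QS S) Qb : ↥(QS S) →+* Qb) : ↥(QS S) →* Qb))).toIntLinearMap

@[simp] theorem coe_qsToQb (x : Additive (↥(QS S))ˣ) :
    (((qsToQb S x).toMul : Qbˣ) : Qb) = ((x.toMul : (↥(QS S))ˣ) : ↥(QS S)) := rfl

theorem qsToQb_equiv (σ : GQ) (x : Additive (↥(QS S))ˣ) :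
    qsToQb S (qsRep S σ x) = qbRep σ (qsToQb S x) := rfl

theorem qsToQb_injective : Function.Injective (qsToQb S) := by
  intro x y h
  apply Additive.toMul.injective
  apply Units.ext
  apply Subtype.ext
  have := congrArg (fun z : Additive Qbˣ => ((z.toMul : Qbˣ) : Qb)) h
  simpa using this

/-- the unit of `ℚ_S` attached to a nonzero element of `QS S` -/
def mkQS {x : Qb} (hx : x ∈ QS S) (hx0 : x ≠ 0) : Additive (↥(QS S))ˣ :=
  Additive.ofMul (Units.mk0 (⟨x, hx⟩ : ↥(QS S)) (fun h => hx0 (congrArg Subtype.val h)))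

@[simp] theorem coe_mkQS {x : Qb} (hx : x ∈ QS S) (hx0 : x ≠ 0) :
    ((((mkQS hx hx0).toMul : (↥(QS S))ˣ) : ↥(QS S)) : Qb) = x := rfl

/-! ### valuations -/

open Classical in
/-- the normalised valuation at `A ∣ q` (junk `0` if `|x|_A` is not an integral power of `|q|_A`) -/
def ordA (A : ValuationSubring Qb) (q : ℕ) (x : Qb) : ℤ :=
  if h : ∃ n : ℤ, A.valuation x = A.valuation (q : Qb) ^ n then h.choose else 0

/-! ### local subgroups -/

/-- the decomposition group of `A` in `U` -/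
def locSub (U : Subgroup GQ) (A : ValuationSubring Qb) : Subgroup ↥U :=
  (A.decompositionSubgroup ℚ).subgroupOf U

theorem mem_locSub {U : Subgroup GQ} {A : ValuationSubring Qb} {u : ↥U} :
    u ∈ locSub U A ↔ (u : GQ) ∈ A.decompositionSubgroup ℚ := Iff.rfl

/-- the levels of the local group `D_A ∩ U` (all open subgroups) -/
abbrev locLev (U : Subgroup GQ) (A : ValuationSubring Qb) : Levels ↥(locSub U A) :=
  (levAll.sub U).sub (locSub U A)

/-- restriction of a `2`-cochain on `U` to `D_A ∩ U` -/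
abbrev locRes2 {X : Type} {U : Subgroup GQ} (A : ValuationSubring Qb) (x : ↥U × ↥U → X) :
    ↥(locSub U A) × ↥(locSub U A) → X :=
  x ∘ Prod.map (locSub U A).subtype (locSub U A).subtype

/-- restriction of a `1`-cochain on `U` to `D_A ∩ U` -/
abbrev locRes1 {X : Type} {U : Subgroup GQ} (A : ValuationSubring Qb) (x : ↥U → X) :
    ↥(locSub U A) → X :=
  x ∘ (locSub U A).subtype

/-- `x` is a coboundary on `D_A ∩ U` for all `A` over the primes of `S` -/
def LocTriv {k : Type} [CommRing k] {V : Type} [AddCommGroup V] [Module k V]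
    (S : Finset Nat.Primes) {U : Subgroup GQ} (ρ : Representation k ↥U V) (x : ↥U × ↥U → V) : Prop :=
  ∀ q ∈ S, ∀ A : ValuationSubring Qb, A.LiesOverPrime ((q : Nat.Primes) : ℕ) →
    locRes2 A x ∈ B2 (locLev U A) (resRep ρ (locSub U A))

/-- a character of `U` is non-trivial on `D_A ∩ U` -/
def NonSplitAt {U : Subgroup GQ} {n : ℕ} (χ : ↥U →* Multiplicative (ZMod n))
    (A : ValuationSubring Qb) : Prop := ∃ u ∈ locSub U A, χ u ≠ 1

/-! ### number fields inside `Qb` -/

instance instNumberFieldSub (L : IntermediateField ℚ Qb) [FiniteDimensional ℚ L] :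
    NumberField ↥L where
  to_charZero := inferInstance
  to_finiteDimensional := inferInstance

/-- the tautological embedding -/
abbrev emb (L : IntermediateField ℚ Qb) : ↥L →+* Qb := algebraMap ↥L Qb

theorem fixer_emb (L : IntermediateField ℚ Qb) : fixer (emb L) = L.fixingSubgroup := by
  ext σ
  rw [IntermediateField.mem_fixingSubgroup_iff, mem_fixer]
  exact ⟨fun h x hx => h ⟨x, hx⟩, fun h x => h x.1 x.2⟩

variable (S) in
open Classical in
/-- the places of `L` above `S` -/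
def SPl (L : IntermediateField ℚ Qb) [FiniteDimensional ℚ L] : Finset (Pl ↥L) :=
  S.biUnion fun q => (finite_above (F := ↥L) (q : ℕ) q.2.ne_zero).toFinset

theorem mem_SPl {L : IntermediateField ℚ Qb} [FiniteDimensional ℚ L] {v : Pl ↥L} :
    v ∈ SPl S L ↔ ∃ q ∈ S, Above ((q : Nat.Primes) : ℕ) v := by
  simp [SPl]

/-- the place of `L` below `A` -/
abbrev plA (L : IntermediateField ℚ Qb) [FiniteDimensional ℚ L] {q : ℕ}
    (hq : q.Prime) (A : ValuationSubring Qb) (hA : A.LiesOverPrime q) : Pl ↥L :=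
  placeBelow (emb L) hq A hA

end Fermat.Agent.CFT.Global
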